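import Mathlib

/-!
# A period lattice is determined by `g₂` and `g₃`

Shared level-one module (J1) for T20/T24, by helper41.  Mathlib only.

Main result: `Fermat.Agent.S20_helper41.lattice_eq_of_g₂_g₃`:
two `PeriodPair`s with the same invariants `g₂`, `g₃` span the same lattice.

Proof: `u := ℘[L - 0] - ℘[L' - 0]` is analytic at `0`; both Weierstrass functions satisfy the
same first order differential equation, which gives `z a(z) u'(z) = b(z) u(z)` with
`a(0) = -4`, `b(0) = 12`; a nonzero analytic solution of order `n` would need `-4 n = 12`.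
Hence the two `℘`-functions agree near `0`, hence (identity theorem on the connected
complement of the two lattices) everywhere off the lattices; a point of one lattice that
is not in the other one would be a pole of an analytic function.
-/

open Filter Topology PeriodPair

namespace Fermat.Agent.S20_helper41

/-- If an analytic germ `u` at `0` satisfies `z a(z) u'(z) = b(z) u(z)` near `0` with
`n a(0) ≠ b(0)` for all `n : ℕ`, then `u` vanishes near `0`. -/
theorem eventually_eq_zero_of_fuchsian {u a b : ℂ → ℂ} (hu : AnalyticAt ℂ u 0)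
    (ha : AnalyticAt ℂ a 0) (hb : AnalyticAt ℂ b 0)
    (hode : ∀ᶠ z in 𝓝[≠] (0:ℂ), z * a z * deriv u z = b z * u z)
    (hab : ∀ n : ℕ, (n : ℂ) * a 0 ≠ b 0) : ∀ᶠ z in 𝓝 (0:ℂ), u z = 0 := by
  by_contra h
  obtain ⟨n, g, hg, hg0, hug0⟩ := hu.exists_eventuallyEq_pow_smul_nonzero_iff.mpr h
  have hug : u =ᶠ[𝓝 0] fun z => z ^ n * g z := by
    filter_upwards [hug0] with z hz
    simpa using hz
  have hderiv : ∀ᶠ z in 𝓝 (0:ℂ), deriv u z = n * z ^ (n - 1) * g z + z ^ n * deriv g z := by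
    have h1 : deriv u =ᶠ[𝓝 0] deriv (fun z => z ^ n * g z) := hug.deriv
    filter_upwards [h1, hg.eventually_analyticAt] with z hz hgz
    rw [hz]
    have hd : DifferentiableAt ℂ g z := hgz.differentiableAt
    have : HasDerivAt (fun z => z ^ n * g z) (n * z ^ (n - 1) * g z + z ^ n * deriv g z) z :=
      (hasDerivAt_pow n z).mul hd.hasDerivAt
    exact this.deriv
  have key : ∀ᶠ z in 𝓝[≠] (0:ℂ), a z * (n * g z + z * deriv g z) - b z * g z = 0 := by
    filter_upwards [hode, hug.filter_mono nhdsWithin_le_nhds, hderiv.filter_mono nhdsWithin_le_nhds,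
      self_mem_nhdsWithin] with z h1 h2 h3 hz
    have hz0 : z ≠ 0 := hz
    rw [h2, h3] at h1
    have hzn : z ^ n ≠ 0 := pow_ne_zero n hz0
    have hpow : z * ((n:ℂ) * z ^ (n - 1)) = n * z ^ n := by
      rcases Nat.eq_zero_or_pos n with rfl | hn
      · simp
      · rw [mul_left_comm, ← pow_succ', Nat.sub_add_cancel hn]
    have : z ^ n * (a z * (n * g z + z * deriv g z) - b z * g z) = 0 := by
      linear_combination h1 - (a z * g z) * hpow
    exact (mul_eq_zero.mp this).resolve_left hzn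
  have hcont : ContinuousAt (fun z => a z * (n * g z + z * deriv g z) - b z * g z) 0 := by
    have hg' : AnalyticAt ℂ (deriv g) 0 := hg.deriv
    have : AnalyticAt ℂ (fun z => a z * (n * g z + z * deriv g z) - b z * g z) 0 := by
      fun_prop
    exact this.continuousAt
  have h0 : a 0 * (n * g 0 + 0 * deriv g 0) - b 0 * g 0 = 0 := by
    by_contra hne
    have h1 := hcont.eventually_ne hne
    have h2 : ∀ᶠ z in 𝓝[≠] (0:ℂ), False := by
      filter_upwards [key, h1.filter_mono nhdsWithin_le_nhds] with z hz1 hz2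
      exact hz2 hz1
    exact (h2.exists).elim fun _ hf => hf
  apply hab n
  have : ((n:ℂ) * a 0 - b 0) * g 0 = 0 := by linear_combination h0
  rcases mul_eq_zero.mp this with h | h
  · exact sub_eq_zero.mp h
  · exact absurd h hg0

variable (L L' : PeriodPair)

theorem weierstrassP_eq_except_zero (z : ℂ) : ℘[L] z = ℘[L - (0:ℂ)] z + 1 / z ^ 2 := by
  have h := L.weierstrassPExcept_def (0 : L.lattice) z
  simp only [ZeroMemClass.coe_zero, sub_zero] at h
  rw [h]
  simp

theorem derivWeierstrassP_eq_except_zero (z : ℂ) :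
    ℘'[L] z = ℘'[L - (0:ℂ)] z - 2 / z ^ 3 := by
  have h := L.derivWeierstrassPExcept_def (0 : L.lattice) z
  simp only [ZeroMemClass.coe_zero, sub_zero] at h
  rw [h]
  ring

/-- polynomial form of the differential equation -/
theorem ode_poly (z : ℂ) (hz0 : z ≠ 0) (hz : z ∉ L.lattice) :
    (z ^ 3 * ℘'[L - (0:ℂ)] z - 2) ^ 2 = 4 * (z ^ 2 * ℘[L - (0:ℂ)] z + 1) ^ 3
      - L.g₂ * z ^ 4 * (z ^ 2 * ℘[L - (0:ℂ)] z + 1) - L.g₃ * z ^ 6 := by
  have h := L.derivWeierstrassP_sq z hz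
  rw [weierstrassP_eq_except_zero, derivWeierstrassP_eq_except_zero] at h
  field_simp at h
  linear_combination h

theorem eventually_deriv_except_zero :
    ∀ᶠ z in 𝓝 (0:ℂ), deriv ℘[L - (0:ℂ)] z = ℘'[L - (0:ℂ)] z := by
  filter_upwards [L.compl_lattice_sdiff_singleton_mem_nhds 0] with z hz
  exact L.eqOn_deriv_weierstrassPExcept_derivWeierstrassPExcept 0 hz

theorem eventually_notMem_lattice : ∀ᶠ z in 𝓝[≠] (0:ℂ), z ∉ L.lattice := by
  filter_upwards [mem_nhdsWithin_of_mem_nhds (L.compl_lattice_sdiff_singleton_mem_nhds 0),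
    self_mem_nhdsWithin] with z hz hz0
  intro hmem
  exact hz ⟨hmem, hz0⟩

/-- Two lattices with the same `g₂`, `g₃` have the same `℘` germ at `0`. -/
theorem eventually_except_eq (h2 : L.g₂ = L'.g₂) (h3 : L.g₃ = L'.g₃) :
    ∀ᶠ z in 𝓝 (0:ℂ), ℘[L - (0:ℂ)] z = ℘[L' - (0:ℂ)] z := by
  have hP : AnalyticAt ℂ ℘[L - (0:ℂ)] 0 := L.analyticAt_weierstrassPExcept 0
  have hQ : AnalyticAt ℂ ℘[L' - (0:ℂ)] 0 := L'.analyticAt_weierstrassPExcept 0
  have hP' : AnalyticAt ℂ ℘'[L - (0:ℂ)] 0 := L.analyticAt_derivWeierstrassPExcept 0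
  have hQ' : AnalyticAt ℂ ℘'[L' - (0:ℂ)] 0 := L'.analyticAt_derivWeierstrassPExcept 0
  set u : ℂ → ℂ := fun z => ℘[L - (0:ℂ)] z - ℘[L' - (0:ℂ)] z with hu_def
  set a : ℂ → ℂ := fun z => z ^ 3 * (℘'[L - (0:ℂ)] z + ℘'[L' - (0:ℂ)] z) - 4 with ha_def
  set b : ℂ → ℂ := fun z => 4 * ((z ^ 2 * ℘[L - (0:ℂ)] z + 1) ^ 2
      + (z ^ 2 * ℘[L - (0:ℂ)] z + 1) * (z ^ 2 * ℘[L' - (0:ℂ)] z + 1)
      + (z ^ 2 * ℘[L' - (0:ℂ)] z + 1) ^ 2) - L.g₂ * z ^ 4 with hb_def
  have hu : AnalyticAt ℂ u 0 := hP.sub hQ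
  have ha : AnalyticAt ℂ a 0 := by fun_prop
  have hb : AnalyticAt ℂ b 0 := by fun_prop
  have hderiv : ∀ᶠ z in 𝓝 (0:ℂ), deriv u z = ℘'[L - (0:ℂ)] z - ℘'[L' - (0:ℂ)] z := by
    filter_upwards [eventually_deriv_except_zero L, eventually_deriv_except_zero L',
      hP.eventually_analyticAt, hQ.eventually_analyticAt] with z h1 h2 h3 h4
    rw [hu_def, deriv_fun_sub h3.differentiableAt h4.differentiableAt, h1, h2]
  have hode : ∀ᶠ z in 𝓝[≠] (0:ℂ), z * a z * deriv u z = b z * u z := by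
    filter_upwards [eventually_notMem_lattice L, eventually_notMem_lattice L',
      hderiv.filter_mono nhdsWithin_le_nhds, self_mem_nhdsWithin] with z hzL hzL' hd hz0
    have hz0' : z ≠ 0 := hz0
    have e1 := ode_poly L z hz0' hzL
    have e2 := ode_poly L' z hz0' hzL'
    rw [← h2, ← h3] at e2
    rw [hd]
    have : z ^ 2 * (z * a z * (℘'[L - (0:ℂ)] z - ℘'[L' - (0:ℂ)] z) - b z * u z) = 0 := by
      simp only [ha_def, hb_def, hu_def]
      linear_combination e1 - e2
    have hz2 : z ^ 2 ≠ 0 := pow_ne_zero 2 hz0'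
    exact sub_eq_zero.mp ((mul_eq_zero.mp this).resolve_left hz2)
  have hab : ∀ n : ℕ, (n : ℂ) * a 0 ≠ b 0 := by
    intro n h
    simp only [ha_def, hb_def] at h
    have h' : ((4 * n + 12 : ℕ) : ℂ) = 0 := by
      push_cast
      linear_combination -h
    have := Nat.cast_eq_zero.mp h'
    omega
  have := eventually_eq_zero_of_fuchsian hu ha hb hode hab
  filter_upwards [this] with z hz
  exact sub_eq_zero.mp hz

theorem countable_lattice : (L.lattice : Set ℂ).Countable := by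
  have : Countable L.lattice := L.latticeEquivProd.toEquiv.countable_iff.mpr inferInstance
  exact Set.countable_coe_iff.mp this

theorem isPreconnected_compl_union :
    IsPreconnected ((L.lattice : Set ℂ) ∪ (L'.lattice : Set ℂ))ᶜ := by
  have hc : ((L.lattice : Set ℂ) ∪ (L'.lattice : Set ℂ)).Countable :=
    (countable_lattice L).union (countable_lattice L')
  have hr : 1 < Module.rank ℝ ℂ := by
    rw [Complex.rank_real_complex]; norm_num
  exact (hc.isPathConnected_compl_of_one_lt_rank hr).isConnected.isPreconnected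

theorem weierstrassP_eqOn (h2 : L.g₂ = L'.g₂) (h3 : L.g₃ = L'.g₃) :
    Set.EqOn ℘[L] ℘[L'] ((L.lattice : Set ℂ) ∪ (L'.lattice : Set ℂ))ᶜ := by
  set U : Set ℂ := ((L.lattice : Set ℂ) ∪ (L'.lattice : Set ℂ))ᶜ with hU
  have hfU : AnalyticOnNhd ℂ ℘[L] U :=
    L.analyticOnNhd_weierstrassP.mono (Set.compl_subset_compl.mpr Set.subset_union_left)
  have hgU : AnalyticOnNhd ℂ ℘[L'] U :=
    L'.analyticOnNhd_weierstrassP.mono (Set.compl_subset_compl.mpr Set.subset_union_right)
  have hev : ∀ᶠ z in 𝓝 (0:ℂ), ℘[L] z = ℘[L'] z := by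
    filter_upwards [eventually_except_eq L L' h2 h3] with z hz
    rw [weierstrassP_eq_except_zero, weierstrassP_eq_except_zero, hz]
  have hev2 : ∀ᶠ z in 𝓝[≠] (0:ℂ), ∀ᶠ w in 𝓝 z, ℘[L] w = ℘[L'] w :=
    hev.eventually_nhds.filter_mono nhdsWithin_le_nhds
  have hmem : ∀ᶠ z in 𝓝[≠] (0:ℂ), z ∈ U := by
    filter_upwards [eventually_notMem_lattice L, eventually_notMem_lattice L'] with z h1 h2
    simp only [hU, Set.mem_compl_iff, Set.mem_union, SetLike.mem_coe, not_or]
    exact ⟨h1, h2⟩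
  obtain ⟨z₀, hz₀, hz₀U⟩ := (hev2.and hmem).exists
  exact hfU.eqOn_of_preconnected_of_eventuallyEq hgU (isPreconnected_compl_union L L') hz₀U hz₀

theorem lattice_le_of_g₂_g₃ (h2 : L.g₂ = L'.g₂) (h3 : L.g₃ = L'.g₃) :
    L.lattice ≤ L'.lattice := by
  intro ω hω
  by_contra hω'
  have heq := weierstrassP_eqOn L L' h2 h3
  -- near ω, punctured, ℘[L] = ℘[L']
  have hev : ℘[L] =ᶠ[𝓝[≠] ω] ℘[L'] := by
    filter_upwards [mem_nhdsWithin_of_mem_nhds (L.compl_lattice_sdiff_singleton_mem_nhds ω),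
      mem_nhdsWithin_of_mem_nhds (L'.isClosed_lattice.isOpen_compl.mem_nhds hω'),
      self_mem_nhdsWithin] with z h1 h2' hz
    apply heq
    simp only [Set.mem_compl_iff, Set.mem_union, SetLike.mem_coe, not_or]
    refine ⟨fun hm => h1 ⟨hm, hz⟩, h2'⟩
  have h1 : meromorphicOrderAt ℘[L] ω = -2 := L.order_weierstrassP ω hω
  have h2' : meromorphicOrderAt ℘[L] ω = meromorphicOrderAt ℘[L'] ω :=
    meromorphicOrderAt_congr hev
  have h3' : 0 ≤ meromorphicOrderAt ℘[L'] ω :=
    (L'.analyticOnNhd_weierstrassP ω hω').meromorphicOrderAt_nonneg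
  rw [← h2', h1] at h3'
  exact absurd h3' (by decide)

/-- A lattice is determined by its invariants `g₂` and `g₃`. -/
theorem lattice_eq_of_g₂_g₃ (h2 : L.g₂ = L'.g₂) (h3 : L.g₃ = L'.g₃) :
    L.lattice = L'.lattice :=
  le_antisymm (lattice_le_of_g₂_g₃ L L' h2 h3) (lattice_le_of_g₂_g₃ L' L h2.symm h3.symm)

end Fermat.Agent.S20_helper41
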