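import Mathlib
import Fermat.Agent.S20_helper41.LatticeRigid

/-!
# `j(τ) = j(τ')` iff `τ`, `τ'` are `SL(2, ℤ)`-equivalent

Shared level-one module (J2) for T20/T24, by helper41.

* `jInv τ := E₄ τ ^ 3 / Δ τ` (Mathlib's `E₄` and `ModularForm.discriminant`).
* `jInv_eq_iff : jInv τ = jInv τ' ↔ ∃ γ : SL(2, ℤ), γ • τ = τ'`.
* `jInv_smul : jInv (γ • τ) = jInv τ`.

Tools: `tauPair τ` (the period pair `(τ, 1)`), `scalePair c hc L`, `scalePair_G`,
`tauPair_G_eq_E : (tauPair τ).G k = 2 ζ(k) E_k(τ)`, `exists_SL2_of_lattice_eq`.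
-/

open Filter Topology PeriodPair UpperHalfPlane EisensteinSeries ModularForm MatrixGroups

namespace Fermat.Agent.S20_helper41

/-- the period pair `(τ, 1)` -/
noncomputable def tauPair (τ : ℍ) : PeriodPair where
  ω₁ := τ
  ω₂ := 1
  indep := by
    rw [LinearIndependent.pair_iff]
    intro s t h
    have him := congrArg Complex.im h
    simp at him
    have hs : s = 0 := by
      rcases him with h | h
      · exact h
      · exact absurd h τ.im_ne_zero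
    subst hs
    have hre := congrArg Complex.re h
    simp at hre
    exact ⟨rfl, hre⟩

@[simp] theorem tauPair_ω₁ (τ : ℍ) : (tauPair τ).ω₁ = τ := rfl
@[simp] theorem tauPair_ω₂ (τ : ℍ) : (tauPair τ).ω₂ = 1 := rfl

/-- scaling a period pair by a nonzero complex number -/
noncomputable def scalePair (c : ℂ) (hc : c ≠ 0) (L : PeriodPair) : PeriodPair where
  ω₁ := c * L.ω₁
  ω₂ := c * L.ω₂
  indep := by
    rw [LinearIndependent.pair_iff]
    intro s t h
    apply LinearIndependent.pair_iff.mp L.indep s t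
    have : c * (s • L.ω₁ + t • L.ω₂) = 0 := by
      rw [← h]
      simp only [Complex.real_smul]
      ring
    exact (mul_eq_zero.mp this).resolve_left hc

@[simp] theorem scalePair_ω₁ (c : ℂ) (hc : c ≠ 0) (L : PeriodPair) :
    (scalePair c hc L).ω₁ = c * L.ω₁ := rfl
@[simp] theorem scalePair_ω₂ (c : ℂ) (hc : c ≠ 0) (L : PeriodPair) :
    (scalePair c hc L).ω₂ = c * L.ω₂ := rfl

theorem mem_scalePair_lattice {c : ℂ} {hc : c ≠ 0} {L : PeriodPair} {x : ℂ} :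
    x ∈ (scalePair c hc L).lattice ↔ ∃ l ∈ L.lattice, x = c * l := by
  simp only [mem_lattice, scalePair_ω₁, scalePair_ω₂]
  constructor
  · rintro ⟨m, n, rfl⟩
    exact ⟨m * L.ω₁ + n * L.ω₂, ⟨m, n, rfl⟩, by ring⟩
  · rintro ⟨l, ⟨m, n, rfl⟩, rfl⟩
    exact ⟨m, n, by ring⟩

/-- multiplication by `c` as an equivalence of lattices -/
noncomputable def scaleLatticeEquiv (c : ℂ) (hc : c ≠ 0) (L : PeriodPair) :
    L.lattice ≃ (scalePair c hc L).lattice where
  toFun l := ⟨c * l, mem_scalePair_lattice.mpr ⟨l, l.2, rfl⟩⟩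
  invFun x := ⟨c⁻¹ * x, by
    obtain ⟨l, hl, hx⟩ := mem_scalePair_lattice.mp x.2
    rw [hx, inv_mul_cancel_left₀ hc]
    exact hl⟩
  left_inv l := by
    ext
    simp [inv_mul_cancel_left₀ hc]
  right_inv x := by
    ext
    simp [mul_inv_cancel_left₀ hc]

theorem scalePair_G (c : ℂ) (hc : c ≠ 0) (L : PeriodPair) (n : ℕ) :
    (scalePair c hc L).G n = (c ^ n)⁻¹ * L.G n := by
  rw [G, G, ← (scaleLatticeEquiv c hc L).tsum_eq, ← tsum_mul_left]
  congr 1
  ext l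
  simp [scaleLatticeEquiv, mul_pow]
  ring

theorem tauPair_G (τ : ℍ) (k : ℕ) :
    (tauPair τ).G k = ∑' v : Fin 2 → ℤ, eisSummand k v τ := by
  rw [G, ← (tauPair τ).latticeEquivProd.symm.toEquiv.tsum_eq,
    ← (finTwoArrowEquiv ℤ).symm.tsum_eq]
  congr 1
  ext x
  simp only [LinearEquiv.coe_toEquiv, latticeEquiv_symm_apply, tauPair_ω₁, tauPair_ω₂, mul_one,
    eisSummand, finTwoArrowEquiv_symm_apply]
  simp [zpow_neg]

theorem tauPair_G_eq_E {k : ℕ} (hk : 3 ≤ k) (τ : ℍ) :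
    (tauPair τ).G k = 2 * riemannZeta k * E hk τ := by
  rw [tauPair_G, tsum_eisSummand_eq_riemannZeta_mul_eisensteinSeries hk,
    show E hk τ = (1 / 2 : ℂ) • eisensteinSeriesSIF (N := 1) 0 k τ from rfl,
    eisensteinSeriesSIF_apply]
  simp only [smul_eq_mul]
  ring

/-- pure algebra: homogeneous rescaling of a pair `(x', y')` of weights `(4, 6)` -/
theorem exists_scale {x y x' y' : ℂ} (h : x ≠ 0 ∨ y ≠ 0) (h' : x' ≠ 0 ∨ y' ≠ 0)
    (hrel : x ^ 3 * y' ^ 2 = x' ^ 3 * y ^ 2) :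
    ∃ c : ℂ, c ≠ 0 ∧ (c ^ 4)⁻¹ * x' = x ∧ (c ^ 6)⁻¹ * y' = y := by
  by_cases hx' : x' = 0
  · have hy' : y' ≠ 0 := h'.resolve_left (not_not.mpr hx')
    have hx : x = 0 := by
      have : x ^ 3 * y' ^ 2 = 0 := by rw [hrel, hx']; ring
      have := (mul_eq_zero.mp this).resolve_right (pow_ne_zero 2 hy')
      exact pow_eq_zero_iff (by norm_num) |>.mp this
    have hy : y ≠ 0 := h.resolve_left (not_not.mpr hx)
    obtain ⟨c, hc⟩ := IsAlgClosed.exists_pow_nat_eq (y' / y) (by norm_num : 0 < 6)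
    have hc0 : c ≠ 0 := by
      rintro rfl
      have : y' / y = 0 := by rw [← hc]; norm_num
      exact div_ne_zero hy' hy this
    refine ⟨c, hc0, by rw [hx', hx, mul_zero], ?_⟩
    rw [hc]
    field_simp
  by_cases hy' : y' = 0
  · have hy : y = 0 := by
      have : x' ^ 3 * y ^ 2 = 0 := by rw [← hrel, hy']; ring
      have := (mul_eq_zero.mp this).resolve_left (pow_ne_zero 3 hx')
      exact pow_eq_zero_iff (by norm_num) |>.mp this
    have hx : x ≠ 0 := h.resolve_right (not_not.mpr hy)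
    obtain ⟨c, hc⟩ := IsAlgClosed.exists_pow_nat_eq (x' / x) (by norm_num : 0 < 4)
    have hc0 : c ≠ 0 := by
      rintro rfl
      have : x' / x = 0 := by rw [← hc]; norm_num
      exact div_ne_zero hx' hx this
    refine ⟨c, hc0, ?_, by rw [hy', hy, mul_zero]⟩
    rw [hc]
    field_simp
  · have hx : x ≠ 0 := by
      rintro rfl
      have : x' ^ 3 * y ^ 2 = 0 := by rw [← hrel]; ring
      have hy0 := (mul_eq_zero.mp this).resolve_left (pow_ne_zero 3 hx')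
      have hy0' : y = 0 := pow_eq_zero_iff (by norm_num) |>.mp hy0
      rcases h with h | h
      · exact h rfl
      · exact h hy0'
    have hy : y ≠ 0 := by
      rintro rfl
      have : x ^ 3 * y' ^ 2 = 0 := by rw [hrel]; ring
      have hx0 := (mul_eq_zero.mp this).resolve_right (pow_ne_zero 2 hy')
      exact hx (pow_eq_zero_iff (by norm_num) |>.mp hx0)
    obtain ⟨c, hc⟩ := IsAlgClosed.exists_pow_nat_eq ((y' / y) * (x / x')) (by norm_num : 0 < 2)
    have hc0 : c ≠ 0 := by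
      rintro rfl
      have : (y' / y) * (x / x') = 0 := by rw [← hc]; norm_num
      exact mul_ne_zero (div_ne_zero hy' hy) (div_ne_zero hx hx') this
    refine ⟨c, hc0, ?_, ?_⟩
    · rw [show c ^ 4 = (c ^ 2) ^ 2 by ring, hc]
      field_simp
      linear_combination -hrel
    · rw [show c ^ 6 = (c ^ 2) ^ 3 by ring, hc]
      field_simp
      linear_combination -hrel
  
/-- integer relations `m τ + n = 0` are trivial -/
theorem int_rel_tau (τ : ℍ) {m n : ℤ} (h : (m : ℂ) * τ + n = 0) : m = 0 ∧ n = 0 := by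
  have h1 := LinearIndependent.pair_iff.mp (tauPair τ).indep (m : ℝ) (n : ℝ) (by
    simp only [tauPair_ω₁, tauPair_ω₂, Complex.real_smul]
    push_cast
    linear_combination h)
  exact ⟨by exact_mod_cast h1.1, by exact_mod_cast h1.2⟩

theorem exists_SL2_of_lattice_eq (τ τ' : ℍ) (c : ℂ) (hc : c ≠ 0)
    (h : (scalePair c hc (tauPair τ')).lattice = (tauPair τ).lattice) :
    ∃ γ : SL(2, ℤ), γ • τ = τ' := by
  have e1 : c * τ' ∈ (tauPair τ).lattice := by
    rw [← h]; exact (scalePair c hc (tauPair τ')).ω₁_mem_lattice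
  have e2 : c ∈ (tauPair τ).lattice := by
    rw [← h]
    have := (scalePair c hc (tauPair τ')).ω₂_mem_lattice
    simpa using this
  have e3 : (τ : ℂ) ∈ (scalePair c hc (tauPair τ')).lattice := by
    rw [h]; exact (tauPair τ).ω₁_mem_lattice
  have e4 : (1 : ℂ) ∈ (scalePair c hc (tauPair τ')).lattice := by
    rw [h]; exact (tauPair τ).ω₂_mem_lattice
  obtain ⟨m₁, n₁, h1⟩ := mem_lattice.mp e1
  obtain ⟨m₂, n₂, h2⟩ := mem_lattice.mp e2
  obtain ⟨p₁, q₁, h3⟩ := mem_lattice.mp e3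
  obtain ⟨p₂, q₂, h4⟩ := mem_lattice.mp e4
  simp only [tauPair_ω₁, tauPair_ω₂, scalePair_ω₁, scalePair_ω₂, mul_one] at h1 h2 h3 h4
  -- M' M = 1
  have r1 := int_rel_tau τ (m := p₁ * m₁ + q₁ * m₂ - 1) (n := p₁ * n₁ + q₁ * n₂) (by
    push_cast
    linear_combination h3 + (p₁ : ℂ) * h1 + (q₁ : ℂ) * h2)
  have r2 := int_rel_tau τ (m := p₂ * m₁ + q₂ * m₂) (n := p₂ * n₁ + q₂ * n₂ - 1) (by
    push_cast
    linear_combination h4 + (p₂ : ℂ) * h1 + (q₂ : ℂ) * h2)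
  have hdet : (m₁ * n₂ - n₁ * m₂) * (p₁ * q₂ - q₁ * p₂) = 1 := by
    obtain ⟨a1, a2⟩ := r1
    obtain ⟨b1, b2⟩ := r2
    have a1' : p₁ * m₁ + q₁ * m₂ = 1 := by linarith
    have b2' : p₂ * n₁ + q₂ * n₂ = 1 := by linarith
    have : (m₁ * n₂ - n₁ * m₂) * (p₁ * q₂ - q₁ * p₂)
        = (p₁ * m₁ + q₁ * m₂) * (p₂ * n₁ + q₂ * n₂) - (p₁ * n₁ + q₁ * n₂) * (p₂ * m₁ + q₂ * m₂) := by
      ring
    rw [this, a1', b2', a2, b1]
    ring
  -- sign of the determinant
  have hpos : (0 : ℝ) < ((m₁ * n₂ - n₁ * m₂ : ℤ) : ℝ) := by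
    have hy : 0 < τ.im := τ.im_pos
    have hy' : 0 < τ'.im := τ'.im_pos
    have hcn : 0 < Complex.normSq c := Complex.normSq_pos.mpr hc
    have hre := congrArg Complex.re h1
    have him := congrArg Complex.im h1
    have hre2 := congrArg Complex.re h2
    have him2 := congrArg Complex.im h2
    simp only [Complex.add_re, Complex.mul_re, Complex.intCast_re, Complex.intCast_im, zero_mul,
      sub_zero, Complex.add_im, Complex.mul_im, add_zero, UpperHalfPlane.coe_re,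
      UpperHalfPlane.coe_im] at hre him hre2 him2
    have key : ((m₁ * n₂ - n₁ * m₂ : ℤ) : ℝ) * τ.im = τ'.im * Complex.normSq c := by
      rw [Complex.normSq_apply]
      push_cast
      linear_combination ((m₁:ℝ) * τ.im) * hre2 - ((m₁:ℝ) * τ.re + n₁) * him2 + c.re * him - c.im * hre
    have : 0 < ((m₁ * n₂ - n₁ * m₂ : ℤ) : ℝ) * τ.im := by
      rw [key]; positivity
    exact (pos_iff_pos_of_mul_pos this).mpr hy
  have hdet1 : m₁ * n₂ - n₁ * m₂ = 1 := by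
    have hp : 0 < m₁ * n₂ - n₁ * m₂ := by exact_mod_cast hpos
    rcases Int.eq_one_or_neg_one_of_mul_eq_one hdet with h | h
    · exact h
    · omega
  let γ : SL(2, ℤ) := ⟨!![m₁, n₁; m₂, n₂], by rw [Matrix.det_fin_two_of]; linarith⟩
  refine ⟨γ, ?_⟩
  rw [UpperHalfPlane.ext_iff, coe_specialLinearGroup_apply]
  have g00 : γ 0 0 = m₁ := rfl
  have g01 : γ 0 1 = n₁ := rfl
  have g10 : γ 1 0 = m₂ := rfl
  have g11 : γ 1 1 = n₂ := rfl
  rw [g00, g01, g10, g11]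
  simp only [algebraMap_int_eq, eq_intCast, Complex.ofReal_intCast]
  rw [h1, h2, mul_div_cancel_left₀ _ hc]

/-- the modular invariant `j = E₄³ / Δ` -/
noncomputable def jInv (τ : ℍ) : ℂ := E₄ τ ^ 3 / ModularForm.discriminant τ

theorem jInv_def (τ : ℍ) : jInv τ = E₄ τ ^ 3 / ModularForm.discriminant τ := rfl

theorem tauPair_g₂ (τ : ℍ) : (tauPair τ).g₂ = 60 * (2 * riemannZeta 4) * E₄ τ := by
  rw [g₂, tauPair_G_eq_E (by norm_num : 3 ≤ 4)]
  push_cast
  ring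

theorem tauPair_g₃ (τ : ℍ) : (tauPair τ).g₃ = 140 * (2 * riemannZeta 6) * E₆ τ := by
  rw [g₃, tauPair_G_eq_E (by norm_num : 3 ≤ 6)]
  push_cast
  ring

theorem zeta_four_ne_zero : riemannZeta 4 ≠ 0 :=
  riemannZeta_ne_zero_of_one_lt_re (by norm_num)

theorem zeta_six_ne_zero : riemannZeta 6 ≠ 0 :=
  riemannZeta_ne_zero_of_one_lt_re (by norm_num)

theorem tauPair_g_ne_zero (τ : ℍ) : (tauPair τ).g₂ ≠ 0 ∨ (tauPair τ).g₃ ≠ 0 := by
  by_contra hcon
  push Not at hcon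
  obtain ⟨h2, h3⟩ := hcon
  rw [tauPair_g₂] at h2
  rw [tauPair_g₃] at h3
  have hE4 : E₄ τ = 0 := by
    have := zeta_four_ne_zero
    simpa [this] using h2
  have hE6 : E₆ τ = 0 := by
    have := zeta_six_ne_zero
    simpa [this] using h3
  have hΔ := discriminant_eq_E₄_cube_sub_E₆_sq τ
  rw [hE4, hE6] at hΔ
  exact discriminant_ne_zero τ (by rw [hΔ]; norm_num)

/-- `j(τ) = j(τ')` implies that `τ` and `τ'` are `SL(2, ℤ)`-equivalent. -/
theorem exists_smul_eq_of_jInv_eq {τ τ' : ℍ} (h : jInv τ = jInv τ') :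
    ∃ γ : SL(2, ℤ), γ • τ = τ' := by
  have hΔ := discriminant_eq_E₄_cube_sub_E₆_sq τ
  have hΔ' := discriminant_eq_E₄_cube_sub_E₆_sq τ'
  have hne := discriminant_ne_zero τ
  have hne' := discriminant_ne_zero τ'
  rw [jInv, jInv, div_eq_div_iff hne hne', hΔ, hΔ'] at h
  have hrelE : E₄ τ ^ 3 * E₆ τ' ^ 2 = E₄ τ' ^ 3 * E₆ τ ^ 2 := by
    linear_combination (-1728 : ℂ) * h
  have hrel : (tauPair τ).g₂ ^ 3 * (tauPair τ').g₃ ^ 2
      = (tauPair τ').g₂ ^ 3 * (tauPair τ).g₃ ^ 2 := by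
    simp only [tauPair_g₂, tauPair_g₃]
    linear_combination ((60 * (2 * riemannZeta 4)) ^ 3 * (140 * (2 * riemannZeta 6)) ^ 2) * hrelE
  obtain ⟨c, hc, hc2, hc3⟩ := exists_scale (tauPair_g_ne_zero τ) (tauPair_g_ne_zero τ') hrel
  have e2 : (scalePair c hc (tauPair τ')).g₂ = (tauPair τ).g₂ := by
    rw [← hc2, g₂, g₂, scalePair_G]
    ring
  have e3 : (scalePair c hc (tauPair τ')).g₃ = (tauPair τ).g₃ := by
    rw [← hc3, g₃, g₃, scalePair_G]
    ring
  exact exists_SL2_of_lattice_eq τ τ' c hc (lattice_eq_of_g₂_g₃ _ _ e2 e3)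

theorem jInv_smul (γ : SL(2, ℤ)) (τ : ℍ) : jInv (γ • τ) = jInv τ := by
  have hγ : (γ : GL (Fin 2) ℝ) ∈ 𝒮ℒ := ⟨γ, rfl⟩
  have h4 := SlashInvariantForm.slash_action_eqn'' E₄ hγ τ
  have h12 := SlashInvariantForm.slash_action_eqn'' CuspForm.discriminant hγ τ
  have hd : denom (γ : GL (Fin 2) ℝ) τ ≠ 0 := denom_ne_zero _ _
  rw [jInv, jInv, ModularGroup.sl_moeb, h4]
  rw [CuspForm.coe_discriminant] at h12
  rw [h12]
  rw [div_eq_div_iff (mul_ne_zero (zpow_ne_zero _ hd) (discriminant_ne_zero τ))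
    (discriminant_ne_zero τ)]
  have : (denom (γ : GL (Fin 2) ℝ) τ ^ (4:ℤ)) ^ 3 = denom (γ : GL (Fin 2) ℝ) τ ^ (12:ℤ) := by
    rw [← zpow_natCast, ← zpow_mul]; norm_num
  rw [mul_pow, this]
  ring

theorem jInv_eq_iff {τ τ' : ℍ} : jInv τ = jInv τ' ↔ ∃ γ : SL(2, ℤ), γ • τ = τ' :=
  ⟨exists_smul_eq_of_jInv_eq, fun ⟨γ, h⟩ => by rw [← h, jInv_smul]⟩

end Fermat.Agent.S20_helper41
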